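/-
PROJECT T (S56), interface block S56/Coh (helper21): the H¹ MODEL of chief post #3864 (2).

Explicit locally constant 1-cocycles, on `GQ = Gal(ℚ̄/ℚ)` and on the decomposition groups of the
FIXED places `padicPlace q` of main's `CFT/LocalBridge`.  No new cohomology theory: `Z1`, `B1` ARE
main's `LC.Z₁`, `LC.B₁` (`CFT/LC/LowDegree`), so `LC.H1Equiv` exports everything to `LC.H 𝒰 A 1`.

* `Z1g A`, `B1g A`            : global cocycles / coboundaries (levels = all finite levels);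
* `Dq q`, `Iq q`              : decomposition / inertia group of `padicPlace q`;
* `Z1 H A`, `B1 H A`, `resZ`  : cocycles on a subgroup `H ≤ GQ`, restriction;
* `IsUnramAt q c`             : `c` restricted to `I_q` is a coboundary;
* `Z1unr q A`                 : unramified local cocycles;
* `LocCond`, `SelZ`, `Sel`    : Selmer groups `{c | unramified outside Σ, c ∈ L_q (q ∈ Σ)} / B1g`.
-/
import Fermat.Agent.CFT.LC.LowDegree
import Fermat.Agent.CFT.Bridge.Levels
import Fermat.Agent.CFT.LocalBridge.Inertia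

set_option autoImplicit false

namespace Fermat.Agent.S56.Coh

open CategoryTheory groupCohomology
open Fermat.Agent.CFT.LC Fermat.Agent.CFT.Bridge Fermat.Agent.CFT.LocalBridge

variable {k : Type} [CommRing k]

/-! ### Global and local cocycles -/

/-- Global locally constant 1-cocycles. -/
noncomputable abbrev Z1g (A : Rep.{0} k GQ) : Submodule k (GQ → A) := Z₁ levelsAll A

/-- Global coboundaries. -/
noncomputable abbrev B1g (A : Rep.{0} k GQ) : Submodule k (GQ → A) := B₁ levelsAll A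

/-- The restriction of `A` to a subgroup. -/
noncomputable abbrev resRep (H : Subgroup GQ) (A : Rep.{0} k GQ) : Rep.{0} k ↥H := Rep.res H.subtype A

/-- Locally constant 1-cocycles on a subgroup `H ≤ GQ`. -/
noncomputable abbrev Z1 (H : Subgroup GQ) (A : Rep.{0} k GQ) : Submodule k (↥H → resRep H A) :=
  Z₁ (levelsOf H.subtype) (resRep H A)

/-- Coboundaries on a subgroup `H ≤ GQ`. -/
noncomputable abbrev B1 (H : Subgroup GQ) (A : Rep.{0} k GQ) : Submodule k (↥H → resRep H A) :=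
  B₁ (levelsOf H.subtype) (resRep H A)

variable {A : Rep.{0} k GQ}

lemma mem_Z1g_iff (c : GQ → A) :
    c ∈ Z1g A ↔ (∀ g h : GQ, c (g * h) = A.ρ g (c h) + c g) ∧ IsLC₁ levelsAll A c := by
  rw [mem_Z₁_iff, mem_cocycles₁_iff]

lemma mem_Z1_iff (H : Subgroup GQ) (c : ↥H → resRep H A) :
    c ∈ Z1 H A ↔ (∀ g h : ↥H, c (g * h) = A.ρ (g : GQ) (c h) + c g) ∧
      IsLC₁ (levelsOf H.subtype) (resRep H A) c := by
  rw [mem_Z₁_iff, mem_cocycles₁_iff]
  rfl

lemma B1_le_Z1 (H : Subgroup GQ) : B1 H A ≤ Z1 H A := by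
  intro f hf
  obtain ⟨a, ha, rfl⟩ := (mem_B₁_iff f).1 hf
  rw [mem_Z₁_iff]
  refine ⟨?_, ?_⟩
  · exact (d₀₁_apply_mem_cocycles₁ (A := resRep H A) a)
  · obtain ⟨U, hU, hUa⟩ := ha
    obtain ⟨hn⟩ : U.Normal := (levelsOf H.subtype).normal U hU
    refine ⟨U, hU, fun g s hs => ?_, fun g s hs => ?_⟩
    · simp only [d₀₁_hom_apply]
      rw [map_mul, Module.End.mul_apply, hUa s hs]
    · simp only [d₀₁_hom_apply]
      rw [map_sub, hUa s hs, sub_left_inj, ← Module.End.mul_apply, ← map_mul]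
      have h1 : s * g = g * (g⁻¹ * s * g) := by group
      rw [h1, map_mul, Module.End.mul_apply]
      congr 1
      exact hUa _ (by simpa using hn s hs g⁻¹)

/-! ### Restriction -/

/-- Restriction of a function on `GQ` to a subgroup. -/
def resFun (H : Subgroup GQ) (c : GQ → A) : ↥H → resRep H A := fun s => c s

lemma resFun_mem_Z1 (H : Subgroup GQ) {c : GQ → A} (hc : c ∈ Z1g A) : resFun H c ∈ Z1 H A := by
  rw [mem_Z1g_iff] at hc
  rw [mem_Z1_iff]
  refine ⟨fun g h => hc.1 g h, ?_⟩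
  obtain ⟨U, hU, h1, h2⟩ := hc.2
  refine ⟨U.comap H.subtype, Levels.mem_comap_sets hU, fun g s hs => ?_, fun g s hs => ?_⟩
  · exact h1 g s hs
  · exact h2 g s hs

lemma resFun_mem_B1 (H : Subgroup GQ) {c : GQ → A} (hc : c ∈ B1g A) : resFun H c ∈ B1 H A := by
  obtain ⟨a, ⟨U, hU, ha⟩, rfl⟩ := (mem_B₁_iff c).1 hc
  refine (mem_B₁_iff _).2 ⟨a, ⟨U.comap H.subtype, Levels.mem_comap_sets hU, fun s hs => ha s hs⟩, ?_⟩
  funext s
  simp only [d₀₁_hom_apply, resFun]
  rfl

/-- Restriction of global cocycles to a subgroup, as a linear map. -/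
noncomputable def resZ (H : Subgroup GQ) (A : Rep.{0} k GQ) : Z1g A →ₗ[k] Z1 H A where
  toFun c := ⟨resFun H c.1, resFun_mem_Z1 H c.2⟩
  map_add' _ _ := rfl
  map_smul' _ _ := rfl

@[simp] lemma resZ_apply (H : Subgroup GQ) (c : Z1g A) (s : ↥H) : (resZ H A c).1 s = c.1 s := rfl

/-! ### The fixed places, decomposition and inertia groups -/

/-- The decomposition group of the fixed place `padicPlace q` over `q`. -/
noncomputable def Dq (q : ℕ) [Fact q.Prime] : Subgroup GQ :=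
  (padicPlace q).decompositionSubgroup ℚ

/-- The inertia group of the fixed place `padicPlace q` over `q`. -/
noncomputable def Iq (q : ℕ) [Fact q.Prime] : Subgroup GQ :=
  (padicPlace q).inertiaSubgroupIn ℚ

lemma Iq_le_Dq (q : ℕ) [Fact q.Prime] : Iq q ≤ Dq q := by
  rintro s ⟨t, _, rfl⟩
  exact t.2

/-! ### Unramified cocycles -/

/-- `c` is unramified at `q`: its restriction to `I_q` is a coboundary. -/
def IsUnramAt (q : ℕ) [Fact q.Prime] (c : GQ → A) : Prop :=
  ∃ a : A, ∀ s ∈ Iq q, c s = A.ρ s a - a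

lemma IsUnramAt.add {q : ℕ} [Fact q.Prime] {c c' : GQ → A} (h : IsUnramAt q c)
    (h' : IsUnramAt q c') : IsUnramAt q (c + c') := by
  obtain ⟨a, ha⟩ := h
  obtain ⟨a', ha'⟩ := h'
  exact ⟨a + a', fun s hs => by rw [Pi.add_apply, ha s hs, ha' s hs, map_add]; abel⟩

lemma IsUnramAt.smul {q : ℕ} [Fact q.Prime] {c : GQ → A} (h : IsUnramAt q c) (r : k) :
    IsUnramAt q (r • c) := by
  obtain ⟨a, ha⟩ := h
  exact ⟨r • a, fun s hs => by rw [Pi.smul_apply, ha s hs, map_smul, smul_sub]⟩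

lemma isUnramAt_zero (q : ℕ) [Fact q.Prime] : IsUnramAt q (0 : GQ → A) :=
  ⟨0, fun s _ => by simp⟩

lemma isUnramAt_of_mem_B1g {q : ℕ} [Fact q.Prime] {c : GQ → A} (hc : c ∈ B1g A) :
    IsUnramAt q c := by
  obtain ⟨a, _, rfl⟩ := (mem_B₁_iff c).1 hc
  exact ⟨a, fun s _ => by simp only [d₀₁_hom_apply]⟩

/-- Unramified local cocycles on `D_q`. -/
noncomputable def Z1unr (q : ℕ) [Fact q.Prime] (A : Rep.{0} k GQ) :
    Submodule k (↥(Dq q) → resRep (Dq q) A) where
  carrier := {c | c ∈ Z1 (Dq q) A ∧ ∃ a : A, ∀ s : ↥(Dq q), (s : GQ) ∈ Iq q → c s = A.ρ s a - a}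
  add_mem' := by
    rintro c c' ⟨hc, a, ha⟩ ⟨hc', a', ha'⟩
    refine ⟨Submodule.add_mem _ hc hc', a + a', fun s hs => ?_⟩
    rw [Pi.add_apply, ha s hs, ha' s hs, map_add]; abel
  zero_mem' := ⟨Submodule.zero_mem _, 0, fun s _ => by simp⟩
  smul_mem' := by
    rintro r c ⟨hc, a, ha⟩
    refine ⟨Submodule.smul_mem _ r hc, r • a, fun s hs => ?_⟩
    rw [Pi.smul_apply, ha s hs, map_smul, smul_sub]

lemma Z1unr_le_Z1 (q : ℕ) [Fact q.Prime] : Z1unr q A ≤ Z1 (Dq q) A := fun _ h => h.1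

lemma B1_le_Z1unr (q : ℕ) [Fact q.Prime] : B1 (Dq q) A ≤ Z1unr q A := by
  intro f hf
  refine ⟨B1_le_Z1 _ hf, ?_⟩
  obtain ⟨a, _, rfl⟩ := (mem_B₁_iff f).1 hf
  exact ⟨a, fun s _ => by simp only [d₀₁_hom_apply]; rfl⟩

lemma isUnramAt_iff_resFun_mem {q : ℕ} [Fact q.Prime] {c : GQ → A} (hc : c ∈ Z1g A) :
    IsUnramAt q c ↔ resFun (Dq q) c ∈ Z1unr q A := by
  constructor
  · rintro ⟨a, ha⟩
    exact ⟨resFun_mem_Z1 _ hc, a, fun s hs => ha s hs⟩
  · rintro ⟨_, a, ha⟩
    exact ⟨a, fun s hs => ha ⟨s, Iq_le_Dq q hs⟩ hs⟩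

/-! ### Local conditions and Selmer groups -/

/-- A family of local conditions, stated on GLOBAL cocycles (so that no dependent types occur):
`L q` is a subspace of global cocycle-functions containing everything whose restriction to `D_q`
is a coboundary.  In practice `L q = {c | resFun (Dq q) c ∈ L_q}` for a subspace
`B1 (Dq q) A ≤ L_q ≤ Z1 (Dq q) A`; see `LocCond.ofLocal`. -/
structure LocCond (A : Rep.{0} k GQ) where
  /-- the condition at `q`, as a subspace of functions on `GQ` -/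
  L : ℕ → Submodule k (GQ → A)

/-- The local condition defined by a family of subspaces of local cochains. -/
noncomputable def LocCond.ofLocal
    (Lq : ∀ (q : ℕ) [Fact q.Prime], Submodule k (↥(Dq q) → resRep (Dq q) A)) : LocCond A where
  L q := by
    classical
    exact if h : q.Prime then
      haveI : Fact q.Prime := ⟨h⟩
      { carrier := {c | resFun (Dq q) c ∈ Lq q}
        add_mem' := fun {a b} ha hb => by
          change resFun (Dq q) (a + b) ∈ Lq q
          exact Submodule.add_mem _ ha hb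
        zero_mem' := by
          change resFun (Dq q) (0 : GQ → A) ∈ Lq q
          exact Submodule.zero_mem _
        smul_mem' := fun r a ha => by
          change resFun (Dq q) (r • a) ∈ Lq q
          exact Submodule.smul_mem _ r ha }
    else ⊤

/-- The Selmer cocycles for a finite set `Sg` of primes and local conditions `Lc`:
unramified outside `Sg`, in `Lc.L q` for `q ∈ Sg`. -/
noncomputable def SelZ (Sg : Finset ℕ) (Lc : LocCond A) : Submodule k (GQ → A) where
  carrier := {c | c ∈ Z1g A ∧ (∀ (q : ℕ) [Fact q.Prime], q ∉ Sg → IsUnramAt q c) ∧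
    ∀ q ∈ Sg, c ∈ Lc.L q}
  add_mem' := by
    rintro c c' ⟨hc, hu, hL⟩ ⟨hc', hu', hL'⟩
    exact ⟨Submodule.add_mem _ hc hc', fun q _ hq => (hu q hq).add (hu' q hq),
      fun q hq => Submodule.add_mem _ (hL q hq) (hL' q hq)⟩
  zero_mem' := ⟨Submodule.zero_mem _, fun q _ _ => isUnramAt_zero q,
    fun q _ => Submodule.zero_mem _⟩
  smul_mem' := by
    rintro r c ⟨hc, hu, hL⟩
    exact ⟨Submodule.smul_mem _ r hc, fun q _ hq => (hu q hq).smul r,
      fun q hq => Submodule.smul_mem _ r (hL q hq)⟩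

lemma mem_SelZ_iff {Sg : Finset ℕ} {Lc : LocCond A} {c : GQ → A} :
    c ∈ SelZ Sg Lc ↔ c ∈ Z1g A ∧ (∀ (q : ℕ) [Fact q.Prime], q ∉ Sg → IsUnramAt q c) ∧
      ∀ q ∈ Sg, c ∈ Lc.L q := Iff.rfl

lemma SelZ_le_Z1g (Sg : Finset ℕ) (Lc : LocCond A) : SelZ Sg Lc ≤ Z1g A := fun _ h => h.1

/-- The Selmer group `SelZ / B1g` (a `k`-module; counted by `Nat.card`). -/
abbrev Sel (Sg : Finset ℕ) (Lc : LocCond A) : Type :=
  ↥(SelZ Sg Lc) ⧸ (B1g A).comap (SelZ Sg Lc).subtype

/-- Selmer cocycles grow with the set of primes when the conditions at the new primes are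
implied by being unramified there. -/
lemma SelZ_mono {Sg Sg' : Finset ℕ} {Lc Lc' : LocCond A} (hS : Sg ⊆ Sg')
    (hold : ∀ q ∈ Sg, Lc.L q ≤ Lc'.L q)
    (hnew : ∀ (q : ℕ) [Fact q.Prime], q ∈ Sg' → q ∉ Sg → ∀ c ∈ Z1g A, IsUnramAt q c → c ∈ Lc'.L q)
    (hprime : ∀ q ∈ Sg', q.Prime) :
    SelZ Sg Lc ≤ SelZ Sg' Lc' := by
  rintro c ⟨hc, hu, hL⟩
  refine ⟨hc, fun q _ hq => hu q fun h => hq (hS h), fun q hq => ?_⟩
  by_cases hqS : q ∈ Sg
  · exact hold q hqS (hL q hqS)
  · haveI : Fact q.Prime := ⟨hprime q hq⟩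
    exact hnew q hq hqS c hc (hu q hqS)

end Fermat.Agent.S56.Coh
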