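/-
PROJECT T (S56), interface block S56/Coh (helper21): amendments to `Coh/Defs.lean` requested by the
consumers (never edits of `Defs`).

* `Fix q M`            : the `D_q`-invariants of `M` as a type (shared by `S56/TW/LocalCount` and
                         `S56/Unip`, helper17 #3928);
* `B1g_le_Z1g`         : global coboundaries are cocycles;
* `B1g_le_SelZ`        : coboundaries are Selmer cocycles when `B1 (Dq q) A ≤ L_q`;
* `finite_B1g`         : `B1g A` is finite for finite `A`;
* `card_eq_of_B1g_le`, `finite_of_finite_quot` : cocycles versus classes, by cardinality.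
-/
import Fermat.Agent.S56.Coh.Defs

set_option autoImplicit false

namespace Fermat.Agent.S56.Coh

open CategoryTheory groupCohomology
open Fermat.Agent.CFT.LC Fermat.Agent.CFT.Bridge

variable {k : Type} [CommRing k]

section Fix

variable (q : ℕ) [Fact q.Prime] (M : Rep.{0} k GQ)

/-- The `D_q`-invariants of `M`, as a type. -/
abbrev Fix : Type := {m : M // ∀ g : ↥(Dq q), M.ρ g m = m}

end Fix

variable {A : Rep.{0} k GQ}

/-- Global coboundaries are cocycles. -/
lemma B1g_le_Z1g : B1g A ≤ Z1g A := by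
  intro f hf
  obtain ⟨a, ha, rfl⟩ := (mem_B₁_iff f).1 hf
  rw [mem_Z₁_iff]
  refine ⟨?_, ?_⟩
  · exact (d₀₁_apply_mem_cocycles₁ (A := A) a)
  · obtain ⟨U, hU, hUa⟩ := ha
    obtain ⟨hn⟩ : U.Normal := levelsAll.normal U hU
    refine ⟨U, hU, fun g s hs => ?_, fun g s hs => ?_⟩
    · simp only [d₀₁_hom_apply]
      rw [map_mul, Module.End.mul_apply, hUa s hs]
    · simp only [d₀₁_hom_apply]
      rw [map_sub, hUa s hs, sub_left_inj, ← Module.End.mul_apply, ← map_mul]
      have h1 : s * g = g * (g⁻¹ * s * g) := by group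
      rw [h1, map_mul, Module.End.mul_apply]
      congr 1
      exact hUa _ (by simpa using hn s hs g⁻¹)

lemma ofLocal_L_of_not_prime
    (Lq : ∀ (q : ℕ) [Fact q.Prime], Submodule k (↥(Dq q) → resRep (Dq q) A)) {q : ℕ}
    (hq : ¬ q.Prime) : (LocCond.ofLocal Lq).L q = ⊤ := by
  unfold LocCond.ofLocal
  simp only [dif_neg hq]

lemma mem_ofLocal_L_iff
    (Lq : ∀ (q : ℕ) [Fact q.Prime], Submodule k (↥(Dq q) → resRep (Dq q) A)) (q : ℕ)
    [hq : Fact q.Prime] (c : GQ → A) :
    c ∈ (LocCond.ofLocal Lq).L q ↔ resFun (Dq q) c ∈ Lq q := by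
  unfold LocCond.ofLocal
  simp only [dif_pos hq.out]
  rfl

/-- Coboundaries are Selmer cocycles as soon as the local conditions contain the local
coboundaries. -/
lemma B1g_le_SelZ (Sg : Finset ℕ)
    (Lq : ∀ (q : ℕ) [Fact q.Prime], Submodule k (↥(Dq q) → resRep (Dq q) A))
    (h : ∀ (q : ℕ) [Fact q.Prime], q ∈ Sg → B1 (Dq q) A ≤ Lq q) :
    B1g A ≤ SelZ Sg (LocCond.ofLocal Lq) := by
  intro c hc
  refine ⟨B1g_le_Z1g hc, fun q _ _ => isUnramAt_of_mem_B1g hc, fun q hq => ?_⟩
  by_cases hqp : q.Prime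
  · haveI : Fact q.Prime := ⟨hqp⟩
    rw [mem_ofLocal_L_iff]
    exact h q hq (resFun_mem_B1 _ hc)
  · rw [ofLocal_L_of_not_prime _ hqp]
    exact Submodule.mem_top

/-- `B1g A` is finite when `A` is. -/
lemma finite_B1g [Finite A] : Finite ↥(B1g A) := by
  have h : (B1g A : Set (GQ → A)) ⊆ Set.range fun a : A => (d₀₁ A).hom a := by
    intro f hf
    obtain ⟨a, _, rfl⟩ := (mem_B₁_iff f).1 hf
    exact ⟨a, rfl⟩
  exact (Set.Finite.subset (Set.finite_range _) h).to_subtype

/-- Cocycles versus classes, by cardinality. -/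
lemma card_eq_of_B1g_le (Z : Submodule k (GQ → A)) (hB : B1g A ≤ Z) :
    Nat.card ↥Z = Nat.card ↥(B1g A) * Nat.card (↥Z ⧸ (B1g A).comap Z.subtype) := by
  rw [Submodule.card_eq_card_quotient_mul_card ((B1g A).comap Z.subtype)]
  congr 1
  exact Nat.card_congr (Submodule.comapSubtypeEquivOfLe hB).toEquiv

/-- A space of cocycles with finitely many classes is finite when `A` is. -/
lemma finite_of_finite_quot [Finite A] (Z : Submodule k (GQ → A))
    [Finite (↥Z ⧸ (B1g A).comap Z.subtype)] : Finite ↥Z := by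
  haveI := finite_B1g (A := A)
  haveI : Finite ↥((B1g A).comap Z.subtype) :=
    Finite.of_injective (fun x : ↥((B1g A).comap Z.subtype) => (⟨x.1.1, x.2⟩ : ↥(B1g A)))
      fun x y hxy => Subtype.ext (Subtype.ext (by simpa using congrArg Subtype.val hxy))
  have h := Submodule.card_eq_card_quotient_mul_card ((B1g A).comap Z.subtype)
  have h1 : 0 < Nat.card ↥((B1g A).comap Z.subtype) := Nat.card_pos
  have h2 : 0 < Nat.card (↥Z ⧸ (B1g A).comap Z.subtype) := Nat.card_pos
  exact Nat.finite_of_card_ne_zero (by rw [h]; positivity)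

end Fermat.Agent.S56.Coh
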