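/-
PROJECT T (S56), interface block S56/Coh (helper21): THE LOCAL PAIRING INTERFACE of chief post
#3864 (5), as amended by helper23 #3890 / #3900.

* `LocFam A`            : a family of local subspaces `L_q ⊆ (D_q → A)`, one for each prime `q`;
* `mem_ofLocal_iff`     : unfolding of `LocCond.ofLocal`;
* `LocalPairing p M M'` : biadditive pairings `Z1 (Dq q) M × Z1 (Dq q) M' → ZMod p` for all primes `q`,
                           vanishing on coboundaries, `k`-balanced, with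
                           (P1) `recip` (reciprocity up to units), (P2) `unr`, (ND) `nd`;
* `LocalPairing.perp`   : the annihilator family `L_q^⊥`;
* `freeAt`              : replace the conditions at the primes of `Q` by "no condition".
-/
import Fermat.Agent.S56.Coh.Lemmas

set_option autoImplicit false

namespace Fermat.Agent.S56.Coh

open CategoryTheory groupCohomology
open Fermat.Agent.CFT.LC Fermat.Agent.CFT.Bridge

variable {k : Type} [CommRing k]

/-- A family of local subspaces, one for each prime. -/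
abbrev LocFam (A : Rep.{0} k GQ) : Type :=
  ∀ (q : ℕ) [Fact q.Prime], Submodule k (↥(Dq q) → resRep (Dq q) A)

variable {A : Rep.{0} k GQ}

lemma mem_ofLocal_iff (Lq : LocFam A) (q : ℕ) [hq : Fact q.Prime] (c : GQ → A) :
    c ∈ (LocCond.ofLocal Lq).L q ↔ resFun (Dq q) c ∈ Lq q :=
  mem_ofLocal_L_iff Lq q c

/-- No condition at the primes of `Q`. -/
noncomputable def freeAt (Lq : LocFam A) (Q : Finset ℕ) : LocFam A := fun q _ => by
  classical
  exact if q ∈ Q then Z1 (Dq q) A else Lq q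

lemma freeAt_of_mem (Lq : LocFam A) {Q : Finset ℕ} {q : ℕ} [Fact q.Prime] (h : q ∈ Q) :
    freeAt Lq Q q = Z1 (Dq q) A := by
  unfold freeAt
  simp only [if_pos h]

lemma freeAt_of_notMem (Lq : LocFam A) {Q : Finset ℕ} {q : ℕ} [Fact q.Prime] (h : q ∉ Q) :
    freeAt Lq Q q = Lq q := by
  unfold freeAt
  simp only [if_neg h]

variable (p : ℕ) (M M' : Rep.{0} k GQ)

/-- **The local pairing interface.**  For every prime `q` a biadditive pairing on local cocycles
with values in `ZMod p`, trivial on coboundaries, `k`-balanced, satisfying reciprocity up to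
units, orthogonality of unramified classes and right non-degeneracy. -/
structure LocalPairing where
  /-- the pairing at `q` -/
  pair : ∀ (q : ℕ) [Fact q.Prime], ↥(Z1 (Dq q) M) →+ ↥(Z1 (Dq q) M') →+ ZMod p
  /-- coboundaries on the left pair to zero -/
  left_B1 : ∀ (q : ℕ) [Fact q.Prime] (x : ↥(Z1 (Dq q) M)) (y : ↥(Z1 (Dq q) M')),
    x.1 ∈ B1 (Dq q) M → pair q x y = 0
  /-- coboundaries on the right pair to zero -/
  right_B1 : ∀ (q : ℕ) [Fact q.Prime] (x : ↥(Z1 (Dq q) M)) (y : ↥(Z1 (Dq q) M')),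
    y.1 ∈ B1 (Dq q) M' → pair q x y = 0
  /-- `k`-balanced -/
  balanced : ∀ (q : ℕ) [Fact q.Prime] (r : k) (x : ↥(Z1 (Dq q) M)) (y : ↥(Z1 (Dq q) M')),
    pair q (r • x) y = pair q x (r • y)
  /-- (P1) reciprocity up to units: for global cocycles unramified outside the finite set `Sg` of
  primes, a unit-weighted sum of the local pairings over `Sg` vanishes. -/
  recip : ∀ (Sg : Finset ℕ) (x : ↥(Z1g M)) (y : ↥(Z1g M')),
    (∀ q ∈ Sg, q.Prime) →
    (∀ (q : ℕ) [Fact q.Prime], q ∉ Sg → IsUnramAt q x.1 ∧ IsUnramAt q y.1) →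
    ∃ u : ℕ → (ZMod p)ˣ, ∑ q ∈ Sg, (u q : ZMod p) *
      (if h : q.Prime then
        haveI : Fact q.Prime := ⟨h⟩
        pair q (resZ (Dq q) M x) (resZ (Dq q) M' y)
      else 0) = 0
  /-- (P2) unramified classes are orthogonal at `q ≠ p` where both modules are unramified -/
  unr : ∀ (q : ℕ) [Fact q.Prime], q ≠ p →
    (∀ s ∈ Iq q, ∀ m : M, M.ρ s m = m) → (∀ s ∈ Iq q, ∀ m : M', M'.ρ s m = m) →
    ∀ (x : ↥(Z1 (Dq q) M)) (y : ↥(Z1 (Dq q) M')), x.1 ∈ Z1unr q M → y.1 ∈ Z1unr q M' →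
      pair q x y = 0
  /-- (ND) right non-degeneracy -/
  nd : ∀ (q : ℕ) [Fact q.Prime], q ≠ p → ∀ y : ↥(Z1 (Dq q) M'),
    (∀ x : ↥(Z1 (Dq q) M), pair q x y = 0) → y.1 ∈ B1 (Dq q) M'

variable {p M M'}

/-- The annihilator family `L_q^⊥ ⊆ Z1 (Dq q) M'` of a local family `L_q`. -/
noncomputable def LocalPairing.perp (LP : LocalPairing p M M') (Lq : LocFam M) : LocFam M' :=
  fun q _ =>
    { carrier := {y | ∃ hy : y ∈ Z1 (Dq q) M', ∀ x : ↥(Z1 (Dq q) M), x.1 ∈ Lq q →
        LP.pair q x ⟨y, hy⟩ = 0}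
      add_mem' := by
        rintro y y' ⟨hy, h⟩ ⟨hy', h'⟩
        refine ⟨Submodule.add_mem _ hy hy', fun x hx => ?_⟩
        have : (⟨y + y', Submodule.add_mem _ hy hy'⟩ : ↥(Z1 (Dq q) M')) = ⟨y, hy⟩ + ⟨y', hy'⟩ := rfl
        rw [this, map_add, h x hx, h' x hx, add_zero]
      zero_mem' := by
        refine ⟨Submodule.zero_mem _, fun x _ => ?_⟩
        have : (⟨0, Submodule.zero_mem _⟩ : ↥(Z1 (Dq q) M')) = 0 := rfl
        rw [this, map_zero]
      smul_mem' := by
        rintro r y ⟨hy, h⟩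
        refine ⟨Submodule.smul_mem _ r hy, fun x hx => ?_⟩
        have : (⟨r • y, Submodule.smul_mem _ r hy⟩ : ↥(Z1 (Dq q) M')) = r • ⟨y, hy⟩ := rfl
        rw [this, ← LP.balanced]
        exact h (r • x) (Submodule.smul_mem _ r hx) }

lemma LocalPairing.mem_perp_iff (LP : LocalPairing p M M') (Lq : LocFam M) (q : ℕ) [Fact q.Prime]
    (y : ↥(Dq q) → resRep (Dq q) M') :
    y ∈ LP.perp Lq q ↔ ∃ hy : y ∈ Z1 (Dq q) M', ∀ x : ↥(Z1 (Dq q) M), x.1 ∈ Lq q →
      LP.pair q x ⟨y, hy⟩ = 0 := Iff.rfl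

lemma LocalPairing.perp_le_Z1 (LP : LocalPairing p M M') (Lq : LocFam M) (q : ℕ) [Fact q.Prime] :
    LP.perp Lq q ≤ Z1 (Dq q) M' := fun _ h => h.1

lemma LocalPairing.B1_le_perp (LP : LocalPairing p M M') (Lq : LocFam M) (q : ℕ) [Fact q.Prime] :
    B1 (Dq q) M' ≤ LP.perp Lq q := fun y hy =>
  ⟨B1_le_Z1 _ hy, fun x _ => LP.right_B1 q x ⟨y, B1_le_Z1 _ hy⟩ hy⟩

end Fermat.Agent.S56.Coh
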