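/-
PROJECT T (S56), interface block S56/Coh (helper21): THE LOCAL PAIRING INTERFACE, SECOND FORM
(helper23 #4047 (4), chief #4084): the same as `Coh/Pairing.LocalPairing`, but reciprocity is only
required for finite sets `Sg` of primes that contain `p` and outside of which `M` and `M'` are
unramified, its units do not depend on the cocycles, and left and right non-degeneracy are stated
at all primes.

* `LocPairing p M M'` : biadditive pairings `Z1 (Dq q) M × Z1 (Dq q) M' → ZMod p` for all primes `q`,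
                        vanishing on coboundaries, `k`-balanced, with (P1) `recip`, (P2) `unr`,
                        (ND) `nd`, `ndL`;
* `LocPairing.perp`   : the annihilator family `L_q^⊥`.
-/
import Fermat.Agent.S56.Coh.Pairing

set_option autoImplicit false

namespace Fermat.Agent.S56.Coh

open CategoryTheory groupCohomology
open Fermat.Agent.CFT.LC Fermat.Agent.CFT.Bridge

variable {k : Type} [CommRing k] (p : ℕ) (M M' : Rep.{0} k GQ)

/-- **The local pairing interface.**  For every prime `q` a biadditive pairing on local cocycles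
with values in `ZMod p`, trivial on coboundaries, `k`-balanced, satisfying reciprocity up to
units, orthogonality of unramified classes and right non-degeneracy. -/
structure LocPairing where
  /-- the pairing at `q` -/
  pair : ∀ (q : ℕ) [Fact q.Prime], ↥(Z1 (Dq q) M) →+ ↥(Z1 (Dq q) M') →+ ZMod p
  /-- coboundaries on the left pair to zero -/
  left_B1 : ∀ (q : ℕ) [Fact q.Prime] (x : ↥(Z1 (Dq q) M)) (y : ↥(Z1 (Dq q) M')),
    x.1 ∈ B1 (Dq q) M → pair q x y = 0
  /-- coboundaries on the right pair to zero -/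
  right_B1 : ∀ (q : ℕ) [Fact q.Prime] (x : ↥(Z1 (Dq q) M)) (y : ↥(Z1 (Dq q) M')),
    y.1 ∈ B1 (Dq q) M' → pair q x y = 0
  /-- `k`-balanced -/
  balanced : ∀ (q : ℕ) [Fact q.Prime] (r : k) (x : ↥(Z1 (Dq q) M)) (y : ↥(Z1 (Dq q) M')),
    pair q (r • x) y = pair q x (r • y)
  /-- (P1) reciprocity up to units: for a finite set `Sg` of primes containing `p`, outside of
  which `M` and `M'` are unramified, there are units `u q`, INDEPENDENT of the cocycles, such that
  for all global cocycles unramified outside `Sg` the `u`-weighted sum of the local pairings over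
  `Sg` vanishes. -/
  recip : ∀ (Sg : Finset ℕ), (∀ q ∈ Sg, q.Prime) → p ∈ Sg →
    (∀ (q : ℕ) [Fact q.Prime], q ∉ Sg →
      ∀ s ∈ Iq q, (∀ m : M, M.ρ s m = m) ∧ ∀ m : M', M'.ρ s m = m) →
    ∃ u : ℕ → (ZMod p)ˣ, ∀ (x : ↥(Z1g M)) (y : ↥(Z1g M')),
      (∀ (q : ℕ) [Fact q.Prime], q ∉ Sg → IsUnramAt q x.1 ∧ IsUnramAt q y.1) →
      ∑ q ∈ Sg, (u q : ZMod p) *
        (if h : q.Prime then
          haveI : Fact q.Prime := ⟨h⟩
          pair q (resZ (Dq q) M x) (resZ (Dq q) M' y)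
        else 0) = 0
  /-- (P2) unramified classes are orthogonal at `q ≠ p` where both modules are unramified -/
  unr : ∀ (q : ℕ) [Fact q.Prime], q ≠ p →
    (∀ s ∈ Iq q, ∀ m : M, M.ρ s m = m) → (∀ s ∈ Iq q, ∀ m : M', M'.ρ s m = m) →
    ∀ (x : ↥(Z1 (Dq q) M)) (y : ↥(Z1 (Dq q) M')), x.1 ∈ Z1unr q M → y.1 ∈ Z1unr q M' →
      pair q x y = 0
  /-- (ND) right non-degeneracy, at every prime -/
  nd : ∀ (q : ℕ) [Fact q.Prime] (y : ↥(Z1 (Dq q) M')),
    (∀ x : ↥(Z1 (Dq q) M), pair q x y = 0) → y.1 ∈ B1 (Dq q) M'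
  /-- (ND) left non-degeneracy, at every prime -/
  ndL : ∀ (q : ℕ) [Fact q.Prime] (x : ↥(Z1 (Dq q) M)),
    (∀ y : ↥(Z1 (Dq q) M'), pair q x y = 0) → x.1 ∈ B1 (Dq q) M

variable {p M M'}

/-- The annihilator family `L_q^⊥ ⊆ Z1 (Dq q) M'` of a local family `L_q`. -/
noncomputable def LocPairing.perp (LP : LocPairing p M M') (Lq : LocFam M) : LocFam M' :=
  fun q _ =>
    { carrier := {y | ∃ hy : y ∈ Z1 (Dq q) M', ∀ x : ↥(Z1 (Dq q) M), x.1 ∈ Lq q →
        LP.pair q x ⟨y, hy⟩ = 0}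
      add_mem' := by
        rintro y y' ⟨hy, h⟩ ⟨hy', h'⟩
        refine ⟨Submodule.add_mem _ hy hy', fun x hx => ?_⟩
        have : (⟨y + y', Submodule.add_mem _ hy hy'⟩ : ↥(Z1 (Dq q) M')) = ⟨y, hy⟩ + ⟨y', hy'⟩ := rfl
        rw [this, map_add, h x hx, h' x hx, add_zero]
      zero_mem' := by
        refine ⟨Submodule.zero_mem _, fun x _ => ?_⟩
        have : (⟨0, Submodule.zero_mem _⟩ : ↥(Z1 (Dq q) M')) = 0 := rfl
        rw [this, map_zero]
      smul_mem' := by
        rintro r y ⟨hy, h⟩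
        refine ⟨Submodule.smul_mem _ r hy, fun x hx => ?_⟩
        have : (⟨r • y, Submodule.smul_mem _ r hy⟩ : ↥(Z1 (Dq q) M')) = r • ⟨y, hy⟩ := rfl
        rw [this, ← LP.balanced]
        exact h (r • x) (Submodule.smul_mem _ r hx) }

lemma LocPairing.mem_perp_iff (LP : LocPairing p M M') (Lq : LocFam M) (q : ℕ) [Fact q.Prime]
    (y : ↥(Dq q) → resRep (Dq q) M') :
    y ∈ LP.perp Lq q ↔ ∃ hy : y ∈ Z1 (Dq q) M', ∀ x : ↥(Z1 (Dq q) M), x.1 ∈ Lq q →
      LP.pair q x ⟨y, hy⟩ = 0 := Iff.rfl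

lemma LocPairing.perp_le_Z1 (LP : LocPairing p M M') (Lq : LocFam M) (q : ℕ) [Fact q.Prime] :
    LP.perp Lq q ≤ Z1 (Dq q) M' := fun _ h => h.1

lemma LocPairing.B1_le_perp (LP : LocPairing p M M') (Lq : LocFam M) (q : ℕ) [Fact q.Prime] :
    B1 (Dq q) M' ≤ LP.perp Lq q := fun y hy =>
  ⟨B1_le_Z1 _ hy, fun x _ => LP.right_B1 q x ⟨y, B1_le_Z1 _ hy⟩ hy⟩

/-- The annihilator family is antitone. -/
lemma LocPairing.perp_anti (LP : LocPairing p M M') {Lq Lq' : LocFam M}
    (h : ∀ (q : ℕ) [Fact q.Prime], Lq q ≤ Lq' q) (q : ℕ) [Fact q.Prime] :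
    LP.perp Lq' q ≤ LP.perp Lq q := fun _ ⟨hy, hy'⟩ => ⟨hy, fun x hx => hy' x (h q hx)⟩

end Fermat.Agent.S56.Coh
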