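import Mathlib
import Fermat.Prelude.Def_GroupCohomology_Selmer
import Fermat.Prelude.Def_GaloisRep_LocalConditions
import Fermat.Prelude.Def_GaloisRep_StrictOrdinary
import Fermat.Prelude.Def_GaloisRep_Flat
import Fermat.Agent.S53.Dictionary
import Fermat.Agent.S53.TangentBound
import Fermat.Agent.S56.Coh.Defs

/-!
# PROJECT T (S56), shared definitions (chief post #3903 (C)): the adjoint modules and the
cocycle of a lift to the dual numbers

Fix `rbar : GQ →* GL (Fin 2) k` (the residual representation in a basis).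

* `sl2 k`                 : trace-zero `2 × 2` matrices;
* `adRep rbar`            : conjugation by `rbar` on `sl2 k`;
* `Mrep rbar`             : `M = ad⁰ ρbar` as `Rep k GQ`;
* `detChar rbar`, `MrepTw rbar` : `M' = M(1)`, the twist of `M` by `det rbar`;
* `MatLift rbar`          : a continuous `r : GQ →* M₂(k[ε])` reducing to `rbar`, with `det r`
                            constant (`ε`-part zero);
* `cocOf L : GQ → Mrep rbar` : `σ ↦ (ε-part of r σ) * (rbar σ)⁻¹`, a locally constant cocycle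
                            (`cocOf_mem_Z1g`);
* `LcOf rbar P q`         : the span of the restrictions to `D_q` of the cocycles of all matrix
                            lifts `L` with `P (ofMat L.r L.cont)`, together with `B1 (Dq q)`;
* `Pso p`, `Pfl p`, `Punip p q` : the three local predicates of S56; `LcFam`.
-/

set_option autoImplicit false
set_option linter.unusedSectionVars false
set_option linter.style.haveILetI false

noncomputable section

namespace Fermat.Agent.S56.Coh.CocDefs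

open Fermat.Agent.CFT.LC Fermat.Agent.CFT.Bridge Fermat.Agent.S56.Coh
open Fermat.Agent.S53.Dictionary hiding GQ
open Fermat.Agent.S53.TangentBound
open Matrix

/-! ### trace-zero matrices and the adjoint action -/

/-- trace-zero `2 × 2` matrices -/
def sl2 (k : Type) [CommRing k] : Submodule k (Matrix (Fin 2) (Fin 2) k) :=
  LinearMap.ker (Matrix.traceLinearMap (Fin 2) k k)

theorem mem_sl2 {k : Type} [CommRing k] {X : Matrix (Fin 2) (Fin 2) k} :
    X ∈ sl2 k ↔ X.trace = 0 := by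
  rw [sl2, LinearMap.mem_ker, Matrix.traceLinearMap_apply]

variable {k : Type} [Field k]

/-- conjugation by `g` on all matrices -/
def conjAll (g : GL (Fin 2) k) : Matrix (Fin 2) (Fin 2) k →ₗ[k] Matrix (Fin 2) (Fin 2) k where
  toFun X := (g : Matrix (Fin 2) (Fin 2) k) * X * ((g⁻¹ : GL (Fin 2) k) : Matrix (Fin 2) (Fin 2) k)
  map_add' X Y := by rw [Matrix.mul_add, Matrix.add_mul]
  map_smul' c X := by rw [Matrix.mul_smul, Matrix.smul_mul, RingHom.id_apply]

theorem conjAll_apply (g : GL (Fin 2) k) (X : Matrix (Fin 2) (Fin 2) k) :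
    conjAll g X = (g : Matrix (Fin 2) (Fin 2) k) * X *
      ((g⁻¹ : GL (Fin 2) k) : Matrix (Fin 2) (Fin 2) k) := rfl

theorem trace_conjAll (g : GL (Fin 2) k) (X : Matrix (Fin 2) (Fin 2) k) :
    (conjAll g X).trace = X.trace := by
  rw [conjAll_apply, Matrix.trace_mul_comm, ← Matrix.mul_assoc, ← Units.val_mul,
    inv_mul_cancel, Units.val_one, Matrix.one_mul]

theorem conjAll_one : conjAll (1 : GL (Fin 2) k) = LinearMap.id := by
  ext X : 1
  rw [conjAll_apply, inv_one, Units.val_one, Matrix.one_mul, Matrix.mul_one, LinearMap.id_apply]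

theorem conjAll_mul (g h : GL (Fin 2) k) : conjAll (g * h) = conjAll g ∘ₗ conjAll h := by
  ext X : 1
  rw [LinearMap.comp_apply, conjAll_apply, conjAll_apply, conjAll_apply, _root_.mul_inv_rev,
    Units.val_mul, Units.val_mul]
  simp only [Matrix.mul_assoc]

/-- conjugation by `g` on trace-zero matrices -/
def conjLin (g : GL (Fin 2) k) : sl2 k →ₗ[k] sl2 k :=
  (conjAll g).restrict (p := sl2 k) (q := sl2 k) fun X hX => by
    rw [mem_sl2] at hX ⊢
    rw [trace_conjAll, hX]

theorem conjLin_coe (g : GL (Fin 2) k) (X : sl2 k) :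
    ((conjLin g X : sl2 k) : Matrix (Fin 2) (Fin 2) k) =
      (g : Matrix (Fin 2) (Fin 2) k) * X.1 *
        ((g⁻¹ : GL (Fin 2) k) : Matrix (Fin 2) (Fin 2) k) := rfl

variable (rbar : GQ →* GL (Fin 2) k)

/-- the adjoint representation on trace-zero matrices: `σ • X = rbar σ * X * (rbar σ)⁻¹` -/
def adRep : Representation k GQ (sl2 k) where
  toFun σ := conjLin (rbar σ)
  map_one' := by
    ext X : 2
    rw [conjLin_coe, map_one, inv_one, Units.val_one, Matrix.one_mul, Matrix.mul_one]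
    rfl
  map_mul' σ τ := by
    ext X : 2
    rw [Module.End.mul_apply, conjLin_coe, conjLin_coe, conjLin_coe, map_mul, _root_.mul_inv_rev,
      Units.val_mul, Units.val_mul]
    simp only [Matrix.mul_assoc]

theorem adRep_apply_coe (σ : GQ) (X : sl2 k) :
    ((adRep rbar σ X : sl2 k) : Matrix (Fin 2) (Fin 2) k) =
      (rbar σ : Matrix (Fin 2) (Fin 2) k) * X.1 *
        (((rbar σ)⁻¹ : GL (Fin 2) k) : Matrix (Fin 2) (Fin 2) k) := rfl

/-- the determinant character of `rbar` -/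
def detChar : GQ →* kˣ := Matrix.GeneralLinearGroup.det.comp rbar

theorem detChar_apply (σ : GQ) :
    ((detChar rbar σ : kˣ) : k) = (rbar σ : Matrix (Fin 2) (Fin 2) k).det := rfl

/-- `M = ad⁰ ρbar`: trace-zero matrices with conjugation by `rbar` -/
abbrev Mrep : Rep.{0} k GQ := Rep.of (adRep rbar)

/-- `M' = M(1)`: trace-zero matrices with `σ • X = det (rbar σ) • rbar σ * X * (rbar σ)⁻¹` -/
abbrev MrepTw : Rep.{0} k GQ := Rep.of ((adRep rbar).twist (detChar rbar))

theorem Mrep_ρ_coe (σ : GQ) (X : Mrep rbar) :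
    (((Mrep rbar).ρ σ X : sl2 k) : Matrix (Fin 2) (Fin 2) k) =
      (rbar σ : Matrix (Fin 2) (Fin 2) k) * (X : sl2 k).1 *
        (((rbar σ)⁻¹ : GL (Fin 2) k) : Matrix (Fin 2) (Fin 2) k) := rfl

theorem MrepTw_ρ_coe (σ : GQ) (X : MrepTw rbar) :
    (((MrepTw rbar).ρ σ X : sl2 k) : Matrix (Fin 2) (Fin 2) k) =
      (rbar σ : Matrix (Fin 2) (Fin 2) k).det •
        ((rbar σ : Matrix (Fin 2) (Fin 2) k) * (X : sl2 k).1 *
          (((rbar σ)⁻¹ : GL (Fin 2) k) : Matrix (Fin 2) (Fin 2) k)) := rfl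


/-! ### matrix lifts to the dual numbers and their cocycles -/

/-- A matrix lift of `rbar` to `k[ε]`: a continuous homomorphism `r : GQ → M₂(k[ε])` with
`r ≡ rbar mod ε` and `det r` constant (no `ε`-part). -/
structure MatLift where
  /-- the lift -/
  r : GQ →* Mat (DualNumber k)
  /-- continuity -/
  cont : IsContMat (DualNumber k) r
  /-- `r` reduces to `rbar` -/
  fst_eq : ∀ σ, mfst (r σ) = (rbar σ : Matrix (Fin 2) (Fin 2) k)
  /-- the determinant has no `ε`-part -/
  det_eq : ∀ σ, TrivSqZeroExt.snd (r σ).det = 0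

variable {rbar}

/-- the `ε`-part of the determinant of a `2 × 2` matrix over the dual numbers -/
theorem snd_det (X : Mat (DualNumber k)) :
    TrivSqZeroExt.snd X.det =
      mfst X 0 0 * msnd X 1 1 + msnd X 0 0 * mfst X 1 1
        - (mfst X 0 1 * msnd X 1 0 + msnd X 0 1 * mfst X 1 0) := by
  rw [Matrix.det_fin_two]
  simp only [TrivSqZeroExt.snd_sub, TrivSqZeroExt.snd_mul, mfst_apply, msnd_apply, smul_eq_mul,
    MulOpposite.smul_eq_mul_unop, MulOpposite.unop_op]

/-- `tr (B * A⁻¹) * det A` for `2 × 2` matrices -/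
theorem trace_mul_inv_mul_det (g : GL (Fin 2) k) (B : Matrix (Fin 2) (Fin 2) k) :
    (B * ((g⁻¹ : GL (Fin 2) k) : Matrix (Fin 2) (Fin 2) k)).trace *
        (g : Matrix (Fin 2) (Fin 2) k).det =
      (g : Matrix (Fin 2) (Fin 2) k) 0 0 * B 1 1 + B 0 0 * (g : Matrix (Fin 2) (Fin 2) k) 1 1
        - ((g : Matrix (Fin 2) (Fin 2) k) 0 1 * B 1 0 +
            B 0 1 * (g : Matrix (Fin 2) (Fin 2) k) 1 0) := by
  have hdet : (g : Matrix (Fin 2) (Fin 2) k).det ≠ 0 := by
    have h := (Matrix.isUnit_iff_isUnit_det (g : Matrix (Fin 2) (Fin 2) k)).1 g.isUnit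
    exact h.ne_zero
  rw [Matrix.coe_units_inv, Matrix.inv_def, Ring.inverse_eq_inv', Matrix.mul_smul,
    Matrix.trace_smul, smul_eq_mul, mul_comm, ← mul_assoc, mul_inv_cancel₀ hdet, one_mul,
    Matrix.adjugate_fin_two, Matrix.trace_fin_two]
  simp only [Matrix.mul_apply, Fin.sum_univ_two, Matrix.of_apply, Matrix.cons_val_zero,
    Matrix.cons_val_one, Matrix.cons_val', Matrix.empty_val', Matrix.cons_val_fin_one]
  ring

/-- the cocycle of a matrix lift, as a matrix -/
def cocMat (L : MatLift rbar) (σ : GQ) : Matrix (Fin 2) (Fin 2) k :=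
  msnd (L.r σ) * (((rbar σ)⁻¹ : GL (Fin 2) k) : Matrix (Fin 2) (Fin 2) k)


theorem trace_cocMat (L : MatLift rbar) (σ : GQ) : (cocMat L σ).trace = 0 := by
  have hdet : (rbar σ : Matrix (Fin 2) (Fin 2) k).det ≠ 0 := by
    have h := (Matrix.isUnit_iff_isUnit_det (rbar σ : Matrix (Fin 2) (Fin 2) k)).1 (rbar σ).isUnit
    exact h.ne_zero
  have h1 := trace_mul_inv_mul_det (rbar σ) (msnd (L.r σ))
  have h2 := L.det_eq σ
  rw [snd_det, L.fst_eq σ] at h2
  rw [h2] at h1
  exact (mul_eq_zero.1 h1).resolve_right hdet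

/-- the cocycle of a matrix lift: `σ ↦ (ε-part of r σ) * (rbar σ)⁻¹`, with values in `M` -/
def cocOf (L : MatLift rbar) : GQ → Mrep rbar :=
  fun σ => (⟨cocMat L σ, mem_sl2.2 (trace_cocMat L σ)⟩ : sl2 k)

theorem cocOf_coe (L : MatLift rbar) (σ : GQ) :
    ((cocOf L σ : sl2 k) : Matrix (Fin 2) (Fin 2) k) =
      msnd (L.r σ) * (((rbar σ)⁻¹ : GL (Fin 2) k) : Matrix (Fin 2) (Fin 2) k) := rfl

/-- `r σ = (1 + ε c σ) rbar σ` -/
theorem msnd_eq (L : MatLift rbar) (σ : GQ) :
    msnd (L.r σ) = (cocOf L σ : sl2 k).1 * (rbar σ : Matrix (Fin 2) (Fin 2) k) := by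
  rw [cocOf_coe, Matrix.mul_assoc, ← Units.val_mul, inv_mul_cancel, Units.val_one, Matrix.mul_one]

/-- the cocycle identity -/
theorem cocOf_mul (L : MatLift rbar) (σ τ : GQ) :
    cocOf L (σ * τ) = (Mrep rbar).ρ σ (cocOf L τ) + cocOf L σ := by
  apply Subtype.ext
  rw [Submodule.coe_add, Mrep_ρ_coe, cocOf_coe, cocOf_coe, cocOf_coe, map_mul, map_mul, msnd_mul,
    L.fst_eq, L.fst_eq, _root_.mul_inv_rev, Units.val_mul, Matrix.add_mul]
  congr 1
  · simp only [Matrix.mul_assoc]
  · rw [Matrix.mul_assoc, ← Matrix.mul_assoc (rbar τ : Matrix (Fin 2) (Fin 2) k), ← Units.val_mul,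
      mul_inv_cancel, Units.val_one, Matrix.one_mul]

theorem cocOf_of_eq_one (L : MatLift rbar) {σ : GQ} (h : L.r σ = 1) : cocOf L σ = 0 := by
  apply Subtype.ext
  rw [cocOf_coe, h]
  have : msnd (1 : Mat (DualNumber k)) = 0 := by
    ext i j
    fin_cases i <;> fin_cases j <;> simp
  rw [this, Matrix.zero_mul]
  rfl

theorem rbar_eq_one_of_eq_one (L : MatLift rbar) {σ : GQ} (h : L.r σ = 1) : rbar σ = 1 := by
  apply Units.ext
  rw [← L.fst_eq σ, h, mfst_one, Units.val_one]

/-- a level on which a matrix lift is trivial -/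
theorem exists_level (L : MatLift rbar) : ∃ U ∈ levelsAll.sets, ∀ s ∈ U, L.r s = 1 := by
  obtain ⟨F, hF, h1⟩ := L.cont 2
  haveI := hF
  obtain ⟨U, hU, hUF⟩ := exists_levelAll_le F
  refine ⟨U, hU, fun s hs => ?_⟩
  have hs' : ∀ x ∈ F, s x = x := fun x hx => by
    have := hUF hs
    exact this ⟨x, hx⟩
  have h2 := h1 s hs'
  have hsq : IsLocalRing.maximalIdeal (DualNumber k) ^ 2 = ⊥ := by
    rw [eq_bot_iff, pow_two, Ideal.mul_le]
    intro x hx y hy
    rw [mem_maximalIdeal_iff] at hx hy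
    rw [Ideal.mem_bot]
    apply TrivSqZeroExt.ext
    · simp [hx]
    · simp [hx, hy]
  refine Matrix.ext fun i j => ?_
  have h3 := h2 i j
  rw [hsq, Ideal.mem_bot, Matrix.sub_apply, sub_eq_zero] at h3
  exact h3

/-- the cocycle of a matrix lift is a locally constant cocycle -/
theorem cocOf_mem_Z1g (L : MatLift rbar) : cocOf L ∈ Z1g (Mrep rbar) := by
  rw [mem_Z1g_iff]
  refine ⟨fun g h => cocOf_mul L g h, ?_⟩
  obtain ⟨U, hU, h1⟩ := exists_level L
  refine ⟨U, hU, fun g s hs => ?_, fun g s hs => ?_⟩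
  · rw [cocOf_mul, cocOf_of_eq_one L (h1 s hs), map_zero, zero_add]
  · apply Subtype.ext
    rw [Mrep_ρ_coe, rbar_eq_one_of_eq_one L (h1 s hs), inv_one, Units.val_one, Matrix.one_mul,
      Matrix.mul_one]


/-! ### the local conditions `Lc_v` -/

variable (rbar)

/-- The local condition at `q` cut out by a predicate `P` on lifts to `k[ε]`: the `k`-span of the
restrictions to `D_q` of the cocycles of all matrix lifts `L` with `P (ofMat L.r L.cont)`,
together with the coboundaries. -/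
def LcOf (P : GaloisRepAdic (DualNumber k) → Prop) (q : ℕ) [Fact q.Prime] :
    Submodule k (↥(Dq q) → resRep (Dq q) (Mrep rbar)) :=
  Submodule.span k {f | ∃ L : MatLift rbar, P (ofMat L.r L.cont) ∧ f = resFun (Dq q) (cocOf L)} ⊔
    B1 (Dq q) (Mrep rbar)

variable {rbar}

theorem resFun_cocOf_mem_LcOf {P : GaloisRepAdic (DualNumber k) → Prop} (q : ℕ) [Fact q.Prime]
    (L : MatLift rbar) (hL : P (ofMat L.r L.cont)) : resFun (Dq q) (cocOf L) ∈ LcOf rbar P q :=
  Submodule.mem_sup_left (Submodule.subset_span ⟨L, hL, rfl⟩)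

theorem B1_le_LcOf (P : GaloisRepAdic (DualNumber k) → Prop) (q : ℕ) [Fact q.Prime] :
    B1 (Dq q) (Mrep rbar) ≤ LcOf rbar P q := le_sup_right

/-- **how the upper-bound blocks use `LcOf`**: a subspace containing the coboundaries and the
cocycle of every lift with `P` contains `LcOf rbar P q`. -/
theorem LcOf_le {P : GaloisRepAdic (DualNumber k) → Prop} (q : ℕ) [Fact q.Prime]
    (U : Submodule k (↥(Dq q) → resRep (Dq q) (Mrep rbar))) (hB : B1 (Dq q) (Mrep rbar) ≤ U)
    (hU : ∀ L : MatLift rbar, P (ofMat L.r L.cont) → resFun (Dq q) (cocOf L) ∈ U) :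
    LcOf rbar P q ≤ U := by
  refine sup_le (Submodule.span_le.2 ?_) hB
  rintro f ⟨L, hL, rfl⟩
  exact hU L hL

theorem LcOf_le_Z1 (P : GaloisRepAdic (DualNumber k) → Prop) (q : ℕ) [Fact q.Prime] :
    LcOf rbar P q ≤ Z1 (Dq q) (Mrep rbar) :=
  LcOf_le q _ (B1_le_Z1 _) fun L _ => resFun_mem_Z1 _ (cocOf_mem_Z1g L)

theorem LcOf_mono {P P' : GaloisRepAdic (DualNumber k) → Prop} (h : ∀ ρ, P ρ → P' ρ) (q : ℕ)
    [Fact q.Prime] : LcOf rbar P q ≤ LcOf rbar P' q :=
  LcOf_le q _ (B1_le_LcOf P' q) fun L hL => resFun_cocOf_mem_LcOf q L (h _ hL)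

/-- comparison of the counts: `#(L / B) ≤ #(U / B)` for `L ≤ U` -/
theorem card_quot_le_of_le {V : Type*} [AddCommGroup V] [Module k V] (B L U : Submodule k V)
    (hLU : L ≤ U) [Finite (↥U ⧸ B.comap U.subtype)] :
    Finite (↥L ⧸ B.comap L.subtype) ∧
      Nat.card (↥L ⧸ B.comap L.subtype) ≤ Nat.card (↥U ⧸ B.comap U.subtype) := by
  let f : ↥L →ₗ[k] ↥U := Submodule.inclusion hLU
  let F : (↥L ⧸ B.comap L.subtype) →ₗ[k] (↥U ⧸ B.comap U.subtype) :=
    Submodule.mapQ _ _ f (fun x hx => hx)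
  have hF : Function.Injective F := by
    rw [← LinearMap.ker_eq_bot, LinearMap.ker_eq_bot']
    intro x hx
    induction x using Submodule.Quotient.induction_on with
    | _ x =>
      rw [Submodule.mapQ_apply, Submodule.Quotient.mk_eq_zero] at hx
      rw [Submodule.Quotient.mk_eq_zero]
      exact hx
  exact ⟨Finite.of_injective F hF, Nat.card_le_card_of_injective F hF⟩

/-! ### the three local predicates of S56 -/

/-- strict-ordinary at `p`, determinant cyclotomic -/
def Pso (p : ℕ) : GaloisRepAdic (DualNumber k) → Prop :=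
  fun ρ => ρ.DetIsCyclotomic p ∧ ρ.IsStrictOrdinaryAt p

/-- flat at `p`, determinant cyclotomic -/
def Pfl (p : ℕ) : GaloisRepAdic (DualNumber k) → Prop :=
  fun ρ => ρ.DetIsCyclotomic p ∧ ρ.IsFlatAt p

/-- unipotent on inertia at `q`, determinant cyclotomic -/
def Punip (p q : ℕ) : GaloisRepAdic (DualNumber k) → Prop :=
  fun ρ => ρ.DetIsCyclotomic p ∧ ρ.IsUnipotentOnInertiaAt q

variable (rbar)

/-- The family of local conditions of S56: `Pp` (`= Pso p` or `Pfl p`) at `p`, unipotent on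
inertia at `q ∈ Smin`, `q ≠ p`, and NO condition (all of `Z1 (Dq q)`) at the other primes. -/
def LcFam (p : ℕ) (Smin : Finset ℕ) (Pp : GaloisRepAdic (DualNumber k) → Prop) :
    ∀ (q : ℕ) [Fact q.Prime], Submodule k (↥(Dq q) → resRep (Dq q) (Mrep rbar)) :=
  fun q _ => by
    classical
    exact if q = p then LcOf rbar Pp q
      else if q ∈ Smin then LcOf rbar (Punip p q) q
      else Z1 (Dq q) (Mrep rbar)

variable {rbar}

theorem LcFam_self (p : ℕ) [Fact p.Prime] (Smin : Finset ℕ)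
    (Pp : GaloisRepAdic (DualNumber k) → Prop) : LcFam rbar p Smin Pp p = LcOf rbar Pp p := by
  classical
  simp only [LcFam, if_true]

theorem LcFam_of_mem (p : ℕ) (Smin : Finset ℕ) (Pp : GaloisRepAdic (DualNumber k) → Prop)
    (q : ℕ) [Fact q.Prime] (hqp : q ≠ p) (hq : q ∈ Smin) :
    LcFam rbar p Smin Pp q = LcOf rbar (Punip p q) q := by
  classical
  simp only [LcFam, if_neg hqp, if_pos hq]

theorem LcFam_of_not_mem (p : ℕ) (Smin : Finset ℕ) (Pp : GaloisRepAdic (DualNumber k) → Prop)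
    (q : ℕ) [Fact q.Prime] (hqp : q ≠ p) (hq : q ∉ Smin) :
    LcFam rbar p Smin Pp q = Z1 (Dq q) (Mrep rbar) := by
  classical
  simp only [LcFam, if_neg hqp, if_neg hq]

theorem B1_le_LcFam (p : ℕ) (Smin : Finset ℕ) (Pp : GaloisRepAdic (DualNumber k) → Prop)
    (q : ℕ) [Fact q.Prime] : B1 (Dq q) (Mrep rbar) ≤ LcFam rbar p Smin Pp q := by
  classical
  by_cases hqp : q = p
  · subst hqp
    rw [LcFam_self]
    exact B1_le_LcOf _ _
  · by_cases hq : q ∈ Smin
    · rw [LcFam_of_mem p Smin Pp q hqp hq]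
      exact B1_le_LcOf _ _
    · rw [LcFam_of_not_mem p Smin Pp q hqp hq]
      exact B1_le_Z1 _

theorem LcFam_le_Z1 (p : ℕ) (Smin : Finset ℕ) (Pp : GaloisRepAdic (DualNumber k) → Prop)
    (q : ℕ) [Fact q.Prime] : LcFam rbar p Smin Pp q ≤ Z1 (Dq q) (Mrep rbar) := by
  classical
  by_cases hqp : q = p
  · subst hqp
    rw [LcFam_self]
    exact LcOf_le_Z1 _ _
  · by_cases hq : q ∈ Smin
    · rw [LcFam_of_mem p Smin Pp q hqp hq]
      exact LcOf_le_Z1 _ _
    · rw [LcFam_of_not_mem p Smin Pp q hqp hq]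

end Fermat.Agent.S56.Coh.CocDefs
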